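/-
[LES-NAT] 10g (helper13), on top of helper15's `Profin15` long exact sequence:
* representatives of the connecting maps `δ₀`, `δ₁` with a prescribed lift;
* naturality of `δ₀`, `δ₁` in morphisms of short exact sequences;
* additivity of `H1map`, `H2map` in the equivariant map.
-/
import Fermat.Agent.S55.Profin15.LES1

set_option autoImplicit false

universe u

open CategoryTheory groupCohomology

namespace Fermat.Agent.S55.LesNat13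

open Fermat.Agent.S55.Profin15 Fermat.Agent.S55.Profin15.LevelStr

variable {k G : Type u} [CommRing k] [Group G] (𝒰 : LevelStr G)
variable {A B C A' B' C' : Rep.{u} k G}
variable {φ : A →ₗ[k] B} {ψ : B →ₗ[k] C} {φ' : A' →ₗ[k] B'} {ψ' : B' →ₗ[k] C'}

/-! ### representatives with a prescribed lift -/

/-- for every lift `b` of an invariant `c` there is a level cocycle `z` with `φ ∘ z = d⁰ b`,
and it represents `δ₀ c`. -/
theorem exists_δ₀_rep (h : ShortExact φ ψ) (hB : 𝒰.IsSmooth B) (c : ↥(LevelStr.H0 C)) (b : B)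
    (hb : ψ b = c) :
    ∃ z : ↥(𝒰.Z₁ A), comp₁ φ (z : G → A) = (d₀₁ B).hom b ∧ h.δ₀ 𝒰 hB c = 𝒰.H1π A z := by
  have hdb : (d₀₁ B).hom b ∈ 𝒰.C₁ B := hB.coboundaries₁_le_C₁ ⟨b, rfl⟩
  have hψ : comp₁ ψ ((d₀₁ B).hom b) = 0 := by
    rw [comp₁_d₀₁ ψ h.equivariant_right, hb]
    funext x
    rw [d₀₁_hom_apply, c.2 x, sub_self]
    rfl
  obtain ⟨a, ha, hφa⟩ := h.exists_comp₁_eq 𝒰 hdb hψ
  have hac : a ∈ cocycles₁ A :=
    h.mem_cocycles₁_of_comp₁ (by rw [hφa]; exact coboundaries₁_le_cocycles₁ B ⟨b, rfl⟩)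
  exact ⟨⟨a, hac, ha⟩, hφa, h.δ₀_eq 𝒰 hB c b hb ⟨a, hac, ha⟩ hφa⟩

/-- for every level lift `y` of a level cocycle `c` there is a level `2`-cocycle `w` with
`φ ∘ w = d¹ y`, and it represents `δ₁ [c]`. -/
theorem exists_δ₁_rep (h : ShortExact φ ψ) (hB : 𝒰.IsSmooth B) (c : ↥(𝒰.Z₁ C)) (y : G → B)
    (hy : y ∈ 𝒰.C₁ B) (hyc : comp₁ ψ y = (c : G → C)) :
    ∃ w : ↥(𝒰.Z₂ A), comp₂ φ (w : G × G → A) = (d₁₂ B).hom y ∧
      h.δ₁ 𝒰 hB (𝒰.H1π C c) = 𝒰.H2π A w := by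
  have hdy : (d₁₂ B).hom y ∈ 𝒰.C₂ B := hB.d₁₂_mem_C₂ hy
  have hψ : comp₂ ψ ((d₁₂ B).hom y) = 0 := by
    rw [comp₂_d₁₂ ψ h.equivariant_right, hyc]
    exact LinearMap.mem_ker.1 c.2.1
  obtain ⟨w, hw, hφw⟩ := h.exists_comp₂_eq 𝒰 hdy hψ
  have hwc : w ∈ cocycles₂ A :=
    h.mem_cocycles₂_of_comp₂ (by rw [hφw]; exact coboundaries₂_le_cocycles₂ B ⟨y, rfl⟩)
  exact ⟨⟨w, hwc, hw⟩, hφw, h.δ₁_eq 𝒰 hB c y hy hyc ⟨w, hwc, hw⟩ hφw⟩

/-- every level cocycle of `C` has a level lift -/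
theorem exists_δ₁_rep' (h : ShortExact φ ψ) (hB : 𝒰.IsSmooth B) (c : ↥(𝒰.Z₁ C)) :
    ∃ (y : G → B) (w : ↥(𝒰.Z₂ A)), y ∈ 𝒰.C₁ B ∧ comp₁ ψ y = (c : G → C) ∧
      comp₂ φ (w : G × G → A) = (d₁₂ B).hom y ∧ h.δ₁ 𝒰 hB (𝒰.H1π C c) = 𝒰.H2π A w := by
  obtain ⟨y, hy, hyc⟩ := h.exists_lift₁ 𝒰 c.2.2
  obtain ⟨w, hw, hδ⟩ := exists_δ₁_rep 𝒰 h hB c y hy hyc
  exact ⟨y, w, hy, hyc, hw, hδ⟩

/-! ### naturality -/

section Natural

variable {α : A →ₗ[k] A'} {β : B →ₗ[k] B'} {γ : C →ₗ[k] C'}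

/-- **Naturality of `δ₀`** in morphisms of short exact sequences. -/
theorem δ₀_natural (h : ShortExact φ ψ) (h' : ShortExact φ' ψ') (hB : 𝒰.IsSmooth B)
    (hB' : 𝒰.IsSmooth B') (hα : IsEquivariant α) (hβ : IsEquivariant β) (hγ : IsEquivariant γ)
    (hsq₁ : ∀ a, β (φ a) = φ' (α a)) (hsq₂ : ∀ b, γ (ψ b) = ψ' (β b)) (c : ↥(LevelStr.H0 C)) :
    h'.δ₀ 𝒰 hB' (H0map γ hγ c) = 𝒰.H1map α hα (h.δ₀ 𝒰 hB c) := by
  obtain ⟨b, hb⟩ := h.surjective (c : C)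
  obtain ⟨z, hz, hδ⟩ := exists_δ₀_rep 𝒰 h hB c b hb
  rw [hδ, H1map_H1π]
  refine h'.δ₀_eq 𝒰 hB' _ (β b) ?_ _ ?_
  · rw [← hsq₂, hb]; rfl
  · rw [coe_Z₁map, ← comp₁_d₀₁ β hβ, ← hz]
    funext x
    simp only [comp₁_apply, hsq₁]

/-- **Naturality of `δ₁`** in morphisms of short exact sequences. -/
theorem δ₁_natural (h : ShortExact φ ψ) (h' : ShortExact φ' ψ') (hB : 𝒰.IsSmooth B)
    (hB' : 𝒰.IsSmooth B') (hα : IsEquivariant α) (hβ : IsEquivariant β) (hγ : IsEquivariant γ)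
    (hsq₁ : ∀ a, β (φ a) = φ' (α a)) (hsq₂ : ∀ b, γ (ψ b) = ψ' (β b)) (x : 𝒰.H1 C) :
    h'.δ₁ 𝒰 hB' (𝒰.H1map γ hγ x) = 𝒰.H2map α hα (h.δ₁ 𝒰 hB x) := by
  obtain ⟨c, rfl⟩ := Submodule.Quotient.mk_surjective _ x
  obtain ⟨y, w, hy, hyc, hw, hδ⟩ := exists_δ₁_rep' 𝒰 h hB c
  have hδ' : h.δ₁ 𝒰 hB (Submodule.Quotient.mk c) = 𝒰.H2π A w := hδ
  rw [hδ', H2map_H2π]
  refine h'.δ₁_eq 𝒰 hB' (𝒰.Z₁map γ hγ c) (comp₁ β y) (𝒰.comp₁_mem_C₁ β hy) ?_ _ ?_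
  · rw [coe_Z₁map, ← hyc]
    funext t
    simp only [comp₁_apply, hsq₂]
  · rw [coe_Z₂map, ← comp₂_d₁₂ β hβ, ← hw]
    funext t
    simp only [comp₂_apply, hsq₁]

end Natural

/-! ### additivity in the equivariant map -/

section Additive

variable {σ τ : A →ₗ[k] B}

lemma IsEquivariant.add (hσ : IsEquivariant σ) (hτ : IsEquivariant τ) : IsEquivariant (σ + τ) :=
  fun g a => by simp only [LinearMap.add_apply, hσ g a, hτ g a, map_add]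

lemma IsEquivariant.smul (r : k) (hσ : IsEquivariant σ) : IsEquivariant (r • σ) :=
  fun g a => by simp only [LinearMap.smul_apply, hσ g a, map_smul]

lemma IsEquivariant.neg (hσ : IsEquivariant σ) : IsEquivariant (-σ) :=
  fun g a => by simp only [LinearMap.neg_apply, hσ g a, map_neg]

lemma isEquivariant_zero : IsEquivariant (0 : A →ₗ[k] B) :=
  fun g a => by simp only [LinearMap.zero_apply, map_zero]

theorem H1map_add (hσ : IsEquivariant σ) (hτ : IsEquivariant τ) (x : 𝒰.H1 A) :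
    𝒰.H1map (σ + τ) (IsEquivariant.add hσ hτ) x = 𝒰.H1map σ hσ x + 𝒰.H1map τ hτ x := by
  obtain ⟨c, rfl⟩ := Submodule.Quotient.mk_surjective _ x
  rfl

theorem H2map_add (hσ : IsEquivariant σ) (hτ : IsEquivariant τ) (x : 𝒰.H2 A) :
    𝒰.H2map (σ + τ) (IsEquivariant.add hσ hτ) x = 𝒰.H2map σ hσ x + 𝒰.H2map τ hτ x := by
  obtain ⟨c, rfl⟩ := Submodule.Quotient.mk_surjective _ x
  rfl

theorem H1map_smul (r : k) (hσ : IsEquivariant σ) (x : 𝒰.H1 A) :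
    𝒰.H1map (r • σ) (IsEquivariant.smul r hσ) x = r • 𝒰.H1map σ hσ x := by
  obtain ⟨c, rfl⟩ := Submodule.Quotient.mk_surjective _ x
  rfl

theorem H2map_smul (r : k) (hσ : IsEquivariant σ) (x : 𝒰.H2 A) :
    𝒰.H2map (r • σ) (IsEquivariant.smul r hσ) x = r • 𝒰.H2map σ hσ x := by
  obtain ⟨c, rfl⟩ := Submodule.Quotient.mk_surjective _ x
  rfl

theorem H1map_zero (x : 𝒰.H1 A) :
    𝒰.H1map (0 : A →ₗ[k] B) isEquivariant_zero x = 0 := by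
  obtain ⟨c, rfl⟩ := Submodule.Quotient.mk_surjective _ x
  rfl

theorem H2map_zero (x : 𝒰.H2 A) :
    𝒰.H2map (0 : A →ₗ[k] B) isEquivariant_zero x = 0 := by
  obtain ⟨c, rfl⟩ := Submodule.Quotient.mk_surjective _ x
  rfl

/-- multiplication by a scalar on the module induces multiplication by it on `H¹` -/
theorem H1map_smul_id (r : k) (x : 𝒰.H1 A) :
    𝒰.H1map (r • (LinearMap.id : A →ₗ[k] A)) (IsEquivariant.smul r isEquivariant_id) x = r • x := by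
  rw [H1map_smul 𝒰 r isEquivariant_id, H1map_id]

/-- multiplication by a scalar on the module induces multiplication by it on `H²` -/
theorem H2map_smul_id (r : k) (x : 𝒰.H2 A) :
    𝒰.H2map (r • (LinearMap.id : A →ₗ[k] A)) (IsEquivariant.smul r isEquivariant_id) x = r • x := by
  rw [H2map_smul 𝒰 r isEquivariant_id, H2map_id]

/-- `H1map` only depends on the underlying function -/
theorem H1map_congr (hσ : IsEquivariant σ) (hτ : IsEquivariant τ) (hστ : σ = τ) (x : 𝒰.H1 A) :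
    𝒰.H1map σ hσ x = 𝒰.H1map τ hτ x := by
  subst hστ; rfl

theorem H2map_congr (hσ : IsEquivariant σ) (hτ : IsEquivariant τ) (hστ : σ = τ) (x : 𝒰.H2 A) :
    𝒰.H2map σ hσ x = 𝒰.H2map τ hτ x := by
  subst hστ; rfl

end Additive

end Fermat.Agent.S55.LesNat13
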