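/-
[LES-NAT] 10g (helper13): compatibility of the long exact sequence of level cohomology
(`Profin15`) with restriction along a level-continuous homomorphism `f : H →* G`:
restriction commutes with `H1map/H2map` and with the connecting maps `δ₀`, `δ₁`.
-/
import Fermat.Agent.S55.LesNat13.Natural
import Fermat.Agent.S55.Profin15.Restriction

set_option autoImplicit false

universe u

open CategoryTheory groupCohomology

namespace Fermat.Agent.S55.LesNat13

open Fermat.Agent.S55.Profin15 Fermat.Agent.S55.Profin15.LevelStr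

variable {k G H : Type u} [CommRing k] [Group G] [Group H]
variable {𝒱 : LevelStr H} {𝒰 : LevelStr G} {f : H →* G}
variable {A B C : Rep.{u} k G} {φ : A →ₗ[k] B} {ψ : B →ₗ[k] C}

/-- the same linear map, between the restricted representations -/
abbrev resLin (f : H →* G) (φ : A →ₗ[k] B) : (Rep.res f A) →ₗ[k] (Rep.res f B) := φ

@[simp] lemma resLin_apply (f : H →* G) (φ : A →ₗ[k] B) (a : A) : resLin f φ a = φ a := rfl

lemma isEquivariant_resLin (hφ : IsEquivariant φ) (f : H →* G) :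
    IsEquivariant (resLin f φ) := fun g a => hφ (f g) a

/-- a short exact sequence stays short exact after restriction of the group -/
lemma shortExact_res (h : ShortExact φ ψ) (f : H →* G) :
    ShortExact (resLin f φ) (resLin f ψ) :=
  ⟨isEquivariant_resLin h.equivariant_left f, isEquivariant_resLin h.equivariant_right f,
    h.injective, h.surjective, h.exact⟩

/-- an invariant of `G` is an invariant of `H` -/
def resH0 (f : H →* G) (M : Rep.{u} k G) : ↥(LevelStr.H0 M) →ₗ[k] ↥(LevelStr.H0 (Rep.res f M)) where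
  toFun c := ⟨(c : M), fun x => c.2 (f x)⟩
  map_add' _ _ := rfl
  map_smul' _ _ := rfl

@[simp] lemma coe_resH0 (f : H →* G) (M : Rep.{u} k G) (c : ↥(LevelStr.H0 M)) :
    ((resH0 f M c : ↥(LevelStr.H0 (Rep.res f M))) : M) = c := rfl

lemma comp₁_pull₁ (f : H →* G) (φ : A →ₗ[k] B) (x : G → A) :
    comp₁ (resLin f φ) (pull₁ f A x) = pull₁ f B (comp₁ φ x) := rfl

lemma comp₂_pull₂ (f : H →* G) (φ : A →ₗ[k] B) (x : G × G → A) :
    comp₂ (resLin f φ) (pull₂ f A x) = pull₂ f B (comp₂ φ x) := rfl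

variable (hf : IsContinuous 𝒱 𝒰 f)
include hf

/-- restriction commutes with the maps induced on `H¹` by equivariant maps -/
theorem res₁_H1map (hφ : IsEquivariant φ) (x : 𝒰.H1 A) :
    hf.res₁ B (𝒰.H1map φ hφ x) =
      𝒱.H1map (resLin f φ) (isEquivariant_resLin hφ f) (hf.res₁ A x) := by
  obtain ⟨c, rfl⟩ := Submodule.Quotient.mk_surjective _ x
  rfl

/-- restriction commutes with the maps induced on `H²` by equivariant maps -/
theorem res₂_H2map (hφ : IsEquivariant φ) (x : 𝒰.H2 A) :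
    hf.res₂ B (𝒰.H2map φ hφ x) =
      𝒱.H2map (resLin f φ) (isEquivariant_resLin hφ f) (hf.res₂ A x) := by
  obtain ⟨c, rfl⟩ := Submodule.Quotient.mk_surjective _ x
  rfl

omit hf in
/-- restriction commutes with `H0map` -/
theorem resH0_H0map (hφ : IsEquivariant φ) (x : ↥(LevelStr.H0 A)) :
    resH0 f B (H0map φ hφ x) = H0map (resLin f φ) (isEquivariant_resLin hφ f) (resH0 f A x) :=
  rfl

/-- **restriction commutes with `δ₀`** -/
theorem res₁_δ₀ (h : ShortExact φ ψ) (hB : 𝒰.IsSmooth B) (c : ↥(LevelStr.H0 C)) :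
    hf.res₁ A (h.δ₀ 𝒰 hB c) =
      (shortExact_res h f).δ₀ 𝒱 (hf.isSmooth B hB) (resH0 f C c) := by
  obtain ⟨b, hb⟩ := h.surjective (c : C)
  obtain ⟨z, hz, hδ⟩ := exists_δ₀_rep 𝒰 h hB c b hb
  rw [hδ, IsContinuous.res₁_H1π]
  symm
  refine (shortExact_res h f).δ₀_eq 𝒱 (hf.isSmooth B hB) _ b hb _ ?_
  rw [IsContinuous.coe_resZ₁, comp₁_pull₁, hz, pull₁_d₀₁]

/-- **restriction commutes with `δ₁`** -/
theorem res₂_δ₁ (h : ShortExact φ ψ) (hB : 𝒰.IsSmooth B) (x : 𝒰.H1 C) :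
    hf.res₂ A (h.δ₁ 𝒰 hB x) =
      (shortExact_res h f).δ₁ 𝒱 (hf.isSmooth B hB) (hf.res₁ C x) := by
  obtain ⟨c, rfl⟩ := Submodule.Quotient.mk_surjective _ x
  obtain ⟨y, w, hy, hyc, hw, hδ⟩ := exists_δ₁_rep' 𝒰 h hB c
  have hδ' : h.δ₁ 𝒰 hB (Submodule.Quotient.mk c) = 𝒰.H2π A w := hδ
  rw [hδ', IsContinuous.res₂_H2π]
  symm
  refine (shortExact_res h f).δ₁_eq 𝒱 (hf.isSmooth B hB) (hf.resZ₁ C c) (pull₁ f B y)
    (hf.isConst₁ hy) ?_ _ ?_
  · rw [IsContinuous.coe_resZ₁, comp₁_pull₁, hyc]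
  · rw [IsContinuous.coe_resZ₂, comp₂_pull₂, hw, pull₂_d₁₂]

end Fermat.Agent.S55.LesNat13
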